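import Fermat.Agent.ExplicitFormula.Contour
import Fermat.Agent.PairCorr.Bounds
import Fermat.Agent.VonKoch.Bounds

/-!
# Littlewood's theorem on the gaps between the ordinates

If no ordinate is within `δ` of `T` then `-ζ'/ζ (σ + iT)` is `O (log T)` for `-1 ≤ σ ≤ 2`; it is
`O (1)` for `σ ≥ 3/2`, hence `o (log T)` everywhere by finitely many applications of the three
circles theorem, but it is `log T + O (1)` for `σ ≤ -1/2`.
-/

set_option autoImplicit false

noncomputable section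

namespace FA.OrdinateGaps

open Complex Metric FA.RiemannMangoldt FA.ExplicitFormula FA.ZeroFree FA.PairCorrelation

/-- No ordinate of a zero is within `δ` of `T`. -/
def Free (δ T : ℝ) : Prop := ∀ ρ : ℂ, xiFn ρ = 0 → δ ≤ |(|ρ.im| - T)|

/-- `-ζ'/ζ` is `o (log T)` on the disc of radius `r / 2` about `c + iT`, for free `T`. -/
def Small (δ r c : ℝ) : Prop :=
  ∀ ε : ℝ, 0 < ε → ∃ T₀ : ℝ, ∀ T : ℝ, T₀ ≤ T → Free δ T → ∀ w : ℂ, ‖w‖ ≤ r / 2 →
    ‖negLogDeriv ((c : ℂ) + (T : ℂ) * I + w)‖ ≤ ε * Real.log T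

theorem free_of_forall {δ T : ℝ} (h : ∀ ρ : ℂ, xiFn ρ = 0 → δ ≤ |ρ.im - T|) : Free δ T := by
  intro ρ hρ
  rcases le_total 0 ρ.im with h0 | h0
  · rw [abs_of_nonneg h0]
    exact h ρ hρ
  · have h1 := h (1 - ρ) (by rwa [xiFn_one_sub])
    rw [abs_of_nonpos h0]
    simpa using h1

theorem Free.shift {δ T v : ℝ} (h : Free δ T) (hv : |v| ≤ δ / 2) : Free (δ / 2) (T + v) :=
  fun ρ hρ => by
    have h1 := h ρ hρ
    have h2 := abs_sub_le |ρ.im| (T + v) T
    rw [show T + v - T = v by ring] at h2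
    linarith

/-- The bound in a disc. -/
theorem exists_disc_bound {δ : ℝ} (hδ : 0 < δ) (hδ1 : δ ≤ 1) : ∃ K, 0 < K ∧ ∀ (c T : ℝ) (w : ℂ),
    4 ≤ T → Free δ T → ‖w‖ ≤ δ / 4 → -3 / 4 ≤ c → c ≤ 7 / 4 →
      ‖negLogDeriv ((c : ℂ) + (T : ℂ) * I + w)‖ ≤ K * Real.log T ∧
        DifferentiableAt ℂ negLogDeriv ((c : ℂ) + (T : ℂ) * I + w) := by
  obtain ⟨C, hC, hb⟩ := exists_negLogDeriv_horizontal
  refine ⟨28 * C / δ + 1, by positivity, fun c T w hT hfree hw hc hc' => ?_⟩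
  obtain ⟨h1, h2⟩ := abs_le.1 ((abs_re_le_norm w).trans hw)
  have h3 : |w.im| ≤ δ / 2 := ((abs_im_le_norm w).trans hw).trans (by linarith)
  obtain ⟨h3a, h3b⟩ := abs_le.1 h3
  have e : (c : ℂ) + (T : ℂ) * I + w = ((c + w.re : ℝ) : ℂ) + ((T + w.im : ℝ) : ℂ) * I := by
    apply Complex.ext <;> simp
  have hpos : |T + w.im| = T + w.im := abs_of_pos (by linarith)
  have hgap : Free (δ / 2) (T + w.im) := hfree.shift h3
  rw [e]
  constructor
  · refine (hb _ _ (δ / 2) (by linarith) (by linarith) (by rw [hpos]; linarith) (half_pos hδ)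
      (by linarith) fun ρ hρ => by rw [hpos]; exact hgap ρ hρ).trans ?_
    have hl : 0 ≤ Real.log T := Real.log_nonneg (by linarith)
    have hell : ell (T + w.im) ≤ 14 * Real.log T := by
      rw [show (14 : ℝ) * Real.log T = Real.log (T ^ 14) by rw [Real.log_pow]; norm_num]
      refine Real.log_le_log (by positivity) ?_
      rw [hpos]
      have h4 : (4 : ℝ) ^ 13 ≤ T ^ 13 := pow_le_pow_left₀ (by norm_num) hT 13
      norm_num at h4
      nlinarith
    calc C * ell (T + w.im) / (δ / 2) ≤ C * (14 * Real.log T) / (δ / 2) := by gcongr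
      _ = 28 * C / δ * Real.log T := by ring
      _ ≤ (28 * C / δ + 1) * Real.log T := by nlinarith
  · refine differentiableAt_negLogDeriv (by simp; linarith) (fun h => ?_) fun h => ?_
    · have := congrArg Complex.im h
      simp at this
      linarith
    · have := hgap _ h
      simp only [add_im, ofReal_im, mul_im, ofReal_re, I_re, I_im, mul_zero, mul_one,
        zero_add, add_zero] at this
      rw [hpos, sub_self, abs_zero] at this
      linarith

/-- **One step to the left.** -/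
theorem Small.step {δ c : ℝ} (hδ : 0 < δ) (hδ1 : δ ≤ 1) (h : Small δ (δ / 8) c)
    (hc : -3 / 4 ≤ c) (hc' : c ≤ 7 / 4) : Small δ (δ / 8) (c - δ / 16) := by
  intro ε hε
  obtain ⟨K, hK, hbd⟩ := exists_disc_bound hδ hδ1
  obtain ⟨θ, hθ⟩ : ∃ θ, θ = (Real.log (δ / 8) - Real.log (δ / 16)) /
      (Real.log (3 * δ / 16) - Real.log (δ / 16)) := ⟨_, rfl⟩
  have hθ1 : θ < 1 := by
    have l1 : Real.log (δ / 16) < Real.log (3 * δ / 16) :=
      Real.log_lt_log (by positivity) (by linarith)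
    have l2 : Real.log (δ / 8) < Real.log (3 * δ / 16) :=
      Real.log_lt_log (by positivity) (by linarith)
    rw [hθ, div_lt_one (by linarith)]
    linarith
  obtain ⟨e, he⟩ : ∃ e, e = (ε / K ^ θ) ^ (1 / (1 - θ)) := ⟨_, rfl⟩
  have hq : 0 < ε / K ^ θ := div_pos hε (Real.rpow_pos_of_pos hK θ)
  have he0 : 0 < e := he ▸ Real.rpow_pos_of_pos hq _
  have he1 : e ^ (1 - θ) * K ^ θ = ε := by
    rw [he, ← Real.rpow_mul hq.le, one_div_mul_cancel (by linarith), Real.rpow_one,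
      div_mul_cancel₀ _ (Real.rpow_pos_of_pos hK θ).ne']
  obtain ⟨T₀, hT₀⟩ := h e he0
  refine ⟨max T₀ 4, fun T hT hfree w hw => ?_⟩
  have hT4 : 4 ≤ T := le_of_max_le_right hT
  have hl : 0 < Real.log T := Real.log_pos (by linarith)
  obtain ⟨z, hz⟩ : ∃ z : ℂ, z = w - ((δ / 16 : ℝ) : ℂ) := ⟨_, rfl⟩
  have hzn : ‖z‖ ≤ δ / 8 := by
    rw [hz]
    refine (norm_sub_le _ _).trans ?_
    rw [Complex.norm_real, Real.norm_of_nonneg (by positivity)]
    linarith
  rw [show ((c - δ / 16 : ℝ) : ℂ) + (T : ℂ) * I + w = (c : ℂ) + (T : ℂ) * I + z by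
    rw [hz]; push_cast; ring]
  have key := FA.VonKoch.norm_le_three_circles
    (h := fun u => negLogDeriv ((c : ℂ) + (T : ℂ) * I + u))
    (R := δ / 4) (r₁ := δ / 16) (r₂ := δ / 8) (r₃ := 3 * δ / 16) (M₁ := e * Real.log T)
    (M₃ := K * Real.log T) (by positivity) (by linarith) (by linarith) (by linarith)
    (fun u hu => ((hbd c T u hT4 hfree (mem_ball_zero_iff.1 hu).le hc hc').2.comp u
      (differentiableAt_id.const_add _)).differentiableWithinAt)
    (fun u hu => hT₀ T (le_of_max_le_left hT) hfree u (by rw [hu]; linarith))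
    (fun u hu => (hbd c T u hT4 hfree (by rw [hu]; linarith) hc hc').1) hzn
  rw [← hθ] at key
  refine key.trans (le_of_eq ?_)
  rw [Real.mul_rpow he0.le hl.le, Real.mul_rpow hK.le hl.le,
    show e ^ (1 - θ) * Real.log T ^ (1 - θ) * (K ^ θ * Real.log T ^ θ) =
      e ^ (1 - θ) * K ^ θ * (Real.log T ^ (1 - θ) * Real.log T ^ θ) by ring,
    ← Real.rpow_add hl, sub_add_cancel, Real.rpow_one, he1]

theorem small_start {δ : ℝ} (hδ1 : δ ≤ 1) : Small δ (δ / 8) (7 / 4) := by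
  intro ε hε
  obtain ⟨C, hC, hr⟩ := exists_logDeriv_right
  refine ⟨max 4 (Real.exp (C / ε)), fun T hT _ w hw => ?_⟩
  obtain ⟨h1, h2⟩ := abs_le.1 ((abs_re_le_norm w).trans hw)
  obtain ⟨s, hs⟩ : ∃ s : ℂ, s = ((7 / 4 : ℝ) : ℂ) + (T : ℂ) * I + w := ⟨_, rfl⟩
  have hre : s.re = 7 / 4 + w.re := by simp [hs]
  rw [← hs, negLogDeriv_eq (by linarith) (fun h => by rw [h] at hre; simp at hre; linarith)
    (riemannZeta_ne_zero_of_one_le_re (by linarith)), norm_neg]
  refine (hr s (by linarith) (by linarith)).trans ?_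
  have h3 : C / ε ≤ Real.log T := by
    rw [Real.le_log_iff_exp_le (by linarith [le_of_max_le_left hT])]
    exact le_of_max_le_right hT
  rw [div_le_iff₀ hε] at h3
  linarith

/-- **Every short interval around a large height holds an ordinate.** -/
theorem exists_ordinate_near {δ : ℝ} (hδ : 0 < δ) (hδ1 : δ ≤ 1) : ∃ T₀ : ℝ, ∀ T : ℝ, T₀ ≤ T →
    ∃ ρ : ℂ, xiFn ρ = 0 ∧ |ρ.im - T| < δ := by
  obtain ⟨n, hn⟩ : ∃ n : ℕ, n = ⌊40 / δ⌋₊ := ⟨_, rfl⟩
  have hn1 : (n : ℝ) * δ ≤ 40 := by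
    rw [← le_div_iff₀ hδ, hn]
    exact Nat.floor_le (by positivity)
  have hn2 : 40 < ((n : ℝ) + 1) * δ := by
    rw [← div_lt_iff₀ hδ, hn]
    exact Nat.lt_floor_add_one _
  have hchain : ∀ k : ℕ, k ≤ n → Small δ (δ / 8) (7 / 4 - k * (δ / 16)) := fun k => by
    induction k with
    | zero => intro _; simpa using small_start hδ1
    | succ k ih =>
      intro hk
      have hkn : ((k : ℝ) + 1) * δ ≤ n * δ := by
        have : ((k : ℝ) + 1) ≤ n := by exact_mod_cast hk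
        exact mul_le_mul_of_nonneg_right this hδ.le
      have hk0 : 0 ≤ (k : ℝ) * δ := by positivity
      have := (ih (Nat.le_of_succ_le hk)).step hδ hδ1 (by linarith) (by linarith)
      rwa [show 7 / 4 - ((k + 1 : ℕ) : ℝ) * (δ / 16) = 7 / 4 - k * (δ / 16) - δ / 16 by
        push_cast; ring]
  obtain ⟨T₁, hT₁⟩ := hchain n le_rfl (1 / 2) (by norm_num)
  obtain ⟨C, hC, hleft⟩ := exists_negLogDeriv_left
  refine ⟨max T₁ (max 4 (Real.exp (2 * C + 1))), fun T hT => ?_⟩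
  by_contra hno
  push Not at hno
  obtain ⟨σ, hσ⟩ : ∃ σ : ℝ, σ = 7 / 4 - n * (δ / 16) := ⟨_, rfl⟩
  have h1 := hT₁ T (le_of_max_le_left hT) (free_of_forall hno) 0 (by simp; positivity)
  rw [← hσ, add_zero] at h1
  have h2 := hleft σ T (by linarith) (by linarith)
  have hT4 : 4 ≤ T := le_of_max_le_left (le_of_max_le_right hT)
  have h3 : 2 * C + 1 ≤ Real.log T := by
    rw [Real.le_log_iff_exp_le (by linarith)]
    exact le_of_max_le_right (le_of_max_le_right hT)
  have h4 : Real.log T ≤ Real.log (|T| + 2) :=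
    Real.log_le_log (by linarith) (by rw [abs_of_pos (by linarith)]; linarith)
  have h5 := norm_sub_norm_le (((Real.log (|T| + 2) : ℝ) : ℂ))
    (negLogDeriv ((σ : ℂ) + (T : ℂ) * I))
  rw [Complex.norm_real, Real.norm_of_nonneg (by linarith)] at h5
  rw [norm_sub_rev] at h2
  linarith

end FA.OrdinateGaps

end
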